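/-
P-ES1 / block ES1-KL, row 809 (ES1-KL-BR1-DATA), helper6.  Part 2: descent of the branch data of
`j` from `ℂ · F1 M` (the modular model `model1 M`, `branchClean_model`) to `ℚ̄ · F1 M` along the
unramified extension of places of the constant field extension `ℚ̄ ⊂ ℂ`
(`Fermat.Agent.H29.placeExtStatement`).

`br1Data : Fermat.Agent.H91.ES1KL.Br1DataStatement` and
`br1 : Fermat.Agent.H91.ES1KL.Br1Statement`, both unconditional.
-/
import Mathlib
import Fermat.Agent.H6.ES1KL.BranchC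
import Fermat.Agent.H17.ES1KL.Br1Glue
import Fermat.Agent.H29.ESB.Descent
import Fermat.Agent.H32.ES1.Model1
import Fermat.Agent.H12.ES1A.Degree

set_option autoImplicit false
set_option synthInstance.maxHeartbeats 400000

noncomputable section

open AlgebraicCurve ModularCurve IntermediateField
open scoped MatrixGroups

namespace Fermat.Agent.H6.ES1KL

open Fermat.Agent.H29.ES1 Fermat.Agent.H91.ES1KL

/-- `γ⁻¹ T^M γ ∈ ⟨Γ₁(M), -1⟩` for every `γ ∈ SL(2, ℤ)`. -/
theorem conj_T_pow_mem_gamma1pm (M : ℕ) (γ : SL(2, ℤ)) :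
    γ⁻¹ * ModularGroup.T ^ M * γ ∈ gamma1pm M := by
  have h1 : ModularGroup.T ^ M ∈ CongruenceSubgroup.Gamma M := by
    have := CongruenceSubgroup.ModularGroup_T_pow_mem_Gamma (M : ℤ) (M : ℤ) dvd_rfl
    simpa using this
  have h2 : γ⁻¹ * ModularGroup.T ^ M * γ ∈ CongruenceSubgroup.Gamma M := by
    have := (CongruenceSubgroup.Gamma_normal M).conj_mem _ h1 γ⁻¹
    simpa using this
  have h3 : CongruenceSubgroup.Gamma M ≤ CongruenceSubgroup.Gamma1 M := by
    intro A hA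
    rw [CongruenceSubgroup.Gamma_mem] at hA
    rw [CongruenceSubgroup.Gamma1_mem]
    exact ⟨hA.1, hA.2.2.2, hA.2.2.1⟩
  exact (le_sup_left : CongruenceSubgroup.Gamma1 M ≤ gamma1pm M) (h3 h2)

/-- The base change of `j ∈ ℚ̄ · F1 M` is the `j` of the model of `X₁(M)`. -/
theorem bc_jBarGen (M : ℕ) [NeZero M] (hM : 1 < M) (ι : AlgebraicClosure ℚ →+* ℂ) :
    (Fermat.Agent.H69.ES1.constExtF1 Fermat.Agent.H17.ES1KL.br1_vFun M hM ι).bc
        (Fermat.Agent.H2.jBarGen (F1 M) (jq_mem_F1 (M := M)))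
      = (model1 M).j := by
  apply Subtype.ext
  show coeffMap ι (coeffEmb (AlgebraicClosure ℚ) jq) = coeffEmb ℂ (qExpand ℚ 1 jq)
  rw [qExpand_one_apply]
  exact Fermat.Agent.H33.ESB.coeffMap_coeffEmb_bar ι jq

/-- **BR1-DATA** (row 809): the branch data of `j` on `X₁(M)` over `ℚ̄`. -/
theorem br1Data : Br1DataStatement := by
  intro M _ hM w
  have hM1 : 1 < M := by omega
  have : Algebra.IsAlgebraic ℚ (AlgebraicClosure ℚ) := AlgebraicClosure.isAlgebraic ℚ
  let ι : AlgebraicClosure ℚ →+* ℂ := (IsAlgClosed.lift : AlgebraicClosure ℚ →ₐ[ℚ] ℂ).toRingHom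
  have hι : Function.Injective ι := ι.injective
  let E := Fermat.Agent.H69.ES1.constExtF1 Fermat.Agent.H17.ES1KL.br1_vFun M hM1 ι
  obtain ⟨ext, hext, -⟩ := Fermat.Agent.H29.placeExtStatement (AlgebraicClosure ℚ) ℂ
    ↥(F1Bar M) ↥(F1C M) E
  have hX : (model1 M).IsModular :=
    Fermat.Agent.H32.ES1M.model1Statement Fermat.Agent.H17.ES1KL.br1_vFun M hM
  have hC : Fermat.Agent.H2.BranchClean ℂ (model1 M).j (1728 : ℂ) 3 2 M :=
    branchClean_model (model1 M) hX M (conj_T_pow_mem_gamma1pm M)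
  have hj : E.bc (Fermat.Agent.H2.jBarGen (F1 M) (jq_mem_F1 (M := M))) = (model1 M).j :=
    bc_jBarGen M hM1 ι
  obtain ⟨h1, h2, h3, h4⟩ := hC (ext w)
  -- transport of the orders
  have e0 : (ext w).ord (model1 M).j
      = w.ord (Fermat.Agent.H2.jBarGen (F1 M) (jq_mem_F1 (M := M))) := by
    rw [← hj]; exact hext w _
  have ea : ∀ a : AlgebraicClosure ℚ,
      (ext w).ord ((model1 M).j - algebraMap ℂ ↥(model1 M).F (ι a))
        = w.ord (Fermat.Agent.H2.jBarGen (F1 M) (jq_mem_F1 (M := M))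
            - algebraMap (AlgebraicClosure ℚ) ↥(F1Bar M) a) := by
    intro a
    rw [← hext w, map_sub, hj, E.bc_algebraMap]
    rfl
  have einf : (ext w).ord ((model1 M).j)⁻¹
      = w.ord (Fermat.Agent.H2.jBarGen (F1 M) (jq_mem_F1 (M := M)))⁻¹ := by
    rw [← hext w, map_inv₀, hj]
  have h1728 : ι (1728 : AlgebraicClosure ℚ) = (1728 : ℂ) := map_ofNat ι 1728
  refine ⟨?_, ?_, ?_, ?_⟩
  · intro a ha0 hac hpos
    rw [← ea a] at hpos ⊢
    refine h1 (ι a) ?_ ?_ hpos
    · intro h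
      exact ha0 (hι (by rw [h, map_zero]))
    · intro h
      exact hac (hι (by rw [h, h1728]))
  · intro hpos
    rw [← e0] at hpos ⊢
    exact h2 hpos
  · intro hpos
    have e := ea (1728 : AlgebraicClosure ℚ)
    rw [h1728] at e
    rw [← e] at hpos ⊢
    exact h3 hpos
  · intro hpos
    rw [← einf] at hpos ⊢
    exact h4 hpos

/-- **BR1** (row 810), unconditional. -/
theorem br1 : Br1Statement := Fermat.Agent.H17.ES1KL.br1_of_data br1Data

end Fermat.Agent.H6.ES1KL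

end
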