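/-
P-ES1 / block ES1-KL, milestone 2 (`ℓ = 2, 3`), helper6.  Branch data of `j` for the level fields
of the Hecke correspondences of `X₁(M)`:

* `branchClean_descent` : GENERIC descent `ℂ → ℚ̄` of the branch data of `j` for an arbitrary level
  field `F₀ ∋ j` with `ℚ̄ · F₀` finite over `ℚ̄(j)`;
* `br1DataHecke` : the branch data of `j` on `ℚ̄ · heckeField (F1 M) p` (`p ∤ M` prime):
  unramified outside `0, 1728, ∞`, indices dividing `3, 2, p M`
  (model `es1dModel M p` of helper77, group `⟨Γ₁(M), -1⟩ ∩ Γ₀(p)`);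
* `br1Hecke` : `ModelBranchGen (heckeField (F1 M) p) ℓ jq (6 p M)` for `ℓ ≥ 5`, `ℓ ∤ p M`.
-/
import Mathlib
import Fermat.Agent.H6.ES1KL.Br1Data
import Fermat.Agent.H77.ES1Deg.ModelB

set_option autoImplicit false
set_option synthInstance.maxHeartbeats 400000

noncomputable section

open AlgebraicCurve ModularCurve IntermediateField
open scoped MatrixGroups

namespace Fermat.Agent.H6.ES1KL

open Fermat.Agent.H29.ES1 Fermat.Agent.H91.ES1KL

/-- **Generic descent of branch data** along `ℚ̄ ⊂ ℂ`: if `y ∈ ℂ · F₀` has the `q`-expansion of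
`j` and the branch data `(c; e₀, e₁, e∞)` over `ℂ`, then `j ∈ ℚ̄ · F₀` has the same branch data
over `ℚ̄`. -/
theorem branchClean_descent (F₀ : IntermediateField ℚ (LaurentSeries ℚ)) (hj : jq ∈ F₀)
    (hfin : FiniteDimensional
      ↥((AlgebraicClosure ℚ)⟮Fermat.Agent.H69.ES1.jGenL (AlgebraicClosure ℚ) F₀ hj⟯)
      ↥(laurentBaseChange (AlgebraicClosure ℚ) F₀))
    (y : ↥(laurentBaseChange ℂ F₀)) (hy : (y : LaurentSeries ℂ) = coeffEmb ℂ jq)
    (c : ℤ) (e0 e1 einf : ℕ)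
    (H : Fermat.Agent.H2.BranchClean ℂ y ((c : ℤ) : ℂ) e0 e1 einf) :
    Fermat.Agent.H2.BranchClean (AlgebraicClosure ℚ) (Fermat.Agent.H2.jBarGen F₀ hj)
      ((c : ℤ) : AlgebraicClosure ℚ) e0 e1 einf := by
  intro w
  have : Algebra.IsAlgebraic ℚ (AlgebraicClosure ℚ) := AlgebraicClosure.isAlgebraic ℚ
  let ι : AlgebraicClosure ℚ →+* ℂ := (IsAlgClosed.lift : AlgebraicClosure ℚ →ₐ[ℚ] ℂ).toRingHom
  have hι : Function.Injective ι := ι.injective
  let E := Fermat.Agent.H69.ES1.constExtOfFinite ι F₀ hj hfin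
  obtain ⟨ext, hext, -⟩ := Fermat.Agent.H29.placeExtStatement (AlgebraicClosure ℚ) ℂ
    ↥(laurentBaseChange (AlgebraicClosure ℚ) F₀) ↥(laurentBaseChange ℂ F₀) E
  have hjy : E.bc (Fermat.Agent.H2.jBarGen F₀ hj) = y := by
    apply Subtype.ext
    rw [hy]
    exact Fermat.Agent.H33.ESB.coeffMap_coeffEmb_bar ι jq
  obtain ⟨h1, h2, h3, h4⟩ := H (ext w)
  have e0' : (ext w).ord y = w.ord (Fermat.Agent.H2.jBarGen F₀ hj) := by
    rw [← hjy]; exact hext w _
  have ea : ∀ a : AlgebraicClosure ℚ,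
      (ext w).ord (y - algebraMap ℂ ↥(laurentBaseChange ℂ F₀) (ι a))
        = w.ord (Fermat.Agent.H2.jBarGen F₀ hj
            - algebraMap (AlgebraicClosure ℚ) ↥(laurentBaseChange (AlgebraicClosure ℚ) F₀) a) := by
    intro a
    rw [← hext w, map_sub, hjy, E.bc_algebraMap]
    rfl
  have einf' : (ext w).ord y⁻¹ = w.ord (Fermat.Agent.H2.jBarGen F₀ hj)⁻¹ := by
    rw [← hext w, map_inv₀, hjy]
  have hc : ι ((c : ℤ) : AlgebraicClosure ℚ) = ((c : ℤ) : ℂ) := map_intCast ι c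
  refine ⟨?_, ?_, ?_, ?_⟩
  · intro a ha0 hac hpos
    rw [← ea a] at hpos ⊢
    refine h1 (ι a) ?_ ?_ hpos
    · intro h
      exact ha0 (hι (by rw [h, map_zero]))
    · intro h
      exact hac (hι (by rw [h, hc]))
  · intro hpos
    rw [← e0'] at hpos ⊢
    exact h2 hpos
  · intro hpos
    have e := ea ((c : ℤ) : AlgebraicClosure ℚ)
    rw [hc] at e
    rw [← e] at hpos ⊢
    exact h3 hpos
  · intro hpos
    rw [← einf'] at hpos ⊢
    exact h4 hpos

/-- `γ⁻¹ T^(p M) γ ∈ ⟨Γ₁(M), -1⟩ ∩ Γ₀(p)` for every `γ ∈ SL(2, ℤ)`. -/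
theorem conj_T_pow_mem_es1dGamma (M p : ℕ) (γ : SL(2, ℤ)) :
    γ⁻¹ * ModularGroup.T ^ (p * M) * γ ∈ Fermat.Agent.H77.es1dGamma M p := by
  refine ⟨?_, ?_⟩
  · have h := conj_T_pow_mem_gamma1pm M γ
    have e : γ⁻¹ * ModularGroup.T ^ (p * M) * γ = (γ⁻¹ * ModularGroup.T ^ M * γ) ^ p := by
      rw [mul_comm p M, pow_mul]
      have : ∀ n : ℕ, (γ⁻¹ * ModularGroup.T ^ M * γ) ^ n = γ⁻¹ * (ModularGroup.T ^ M) ^ n * γ := by
        intro n
        induction n with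
        | zero => simp
        | succ n ih => rw [pow_succ, ih, pow_succ]; group
      rw [this]
    rw [e]
    exact pow_mem h p
  · have h1 : ModularGroup.T ^ p ∈ CongruenceSubgroup.Gamma p := by
      have := CongruenceSubgroup.ModularGroup_T_pow_mem_Gamma (p : ℤ) (p : ℤ) dvd_rfl
      simpa using this
    have h2 : γ⁻¹ * ModularGroup.T ^ p * γ ∈ CongruenceSubgroup.Gamma p := by
      have := (CongruenceSubgroup.Gamma_normal p).conj_mem _ h1 γ⁻¹
      simpa using this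
    have h3 : CongruenceSubgroup.Gamma p ≤ CongruenceSubgroup.Gamma0 p := by
      intro A hA
      rw [CongruenceSubgroup.Gamma_mem] at hA
      rw [CongruenceSubgroup.Gamma0_mem]
      exact hA.2.2.1
    have e : γ⁻¹ * ModularGroup.T ^ (p * M) * γ = (γ⁻¹ * ModularGroup.T ^ p * γ) ^ M := by
      rw [pow_mul]
      have : ∀ n : ℕ, (γ⁻¹ * ModularGroup.T ^ p * γ) ^ n = γ⁻¹ * (ModularGroup.T ^ p) ^ n * γ := by
        intro n
        induction n with
        | zero => simp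
        | succ n ih => rw [pow_succ, ih, pow_succ]; group
      rw [this]
    show γ⁻¹ * ModularGroup.T ^ (p * M) * γ ∈ CongruenceSubgroup.Gamma0 p
    rw [e]
    exact pow_mem (h3 h2) M

/-- **BR-DATA for the Hecke level field** `heckeField (F1 M) p`, `p ∤ M` prime: branch data of `j`
over `ℚ̄`, indices dividing `3, 2, p M`. -/
theorem br1DataHecke (M : ℕ) [NeZero M] (hM : 5 ≤ M) (p : ℕ) [NeZero p] (hp : p.Prime)
    (hpM : ¬ p ∣ M) :
    Fermat.Agent.H2.BranchClean (AlgebraicClosure ℚ)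
      (Fermat.Agent.H2.jBarGen (heckeField (F1 M) p) (Fermat.Agent.H69.ES1.jq_mem_heckeField (jq_mem_F1 M) p))
      (1728 : AlgebraicClosure ℚ) 3 2 (p * M) := by
  have hM1 : 1 < M := by omega
  have hX : (model1 M).IsModular :=
    Fermat.Agent.H32.ES1M.model1Statement Fermat.Agent.H17.ES1KL.br1_vFun M hM
  have hX' : (Fermat.Agent.H77.es1dModel M p).IsModular :=
    Fermat.Agent.H77.es1d_isModular hX hp hpM
  have hC : Fermat.Agent.H2.BranchClean ℂ (Fermat.Agent.H77.es1dModel M p).j (1728 : ℂ) 3 2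
      (p * M) :=
    branchClean_model (Fermat.Agent.H77.es1dModel M p) hX' (p * M)
      (conj_T_pow_mem_es1dGamma M p)
  have hfin := Fermat.Agent.H69.ES1.finiteDimensional_heckeField_F1
    Fermat.Agent.H17.ES1KL.br1_vFun M hM1 p (AlgebraicClosure ℚ)
  have hy : (((Fermat.Agent.H77.es1dModel M p).j : ↥(Fermat.Agent.H77.es1dModel M p).F) :
      LaurentSeries ℂ) = coeffEmb ℂ jq :=
    Fermat.Agent.H12.ES1A.coe_j_eq (Fermat.Agent.H77.es1dModel M p) hX'
  have hC' : Fermat.Agent.H2.BranchClean ℂ (Fermat.Agent.H77.es1dModel M p).j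
      (((1728 : ℤ) : ℤ) : ℂ) 3 2 (p * M) := by
    have e : (((1728 : ℤ) : ℤ) : ℂ) = (1728 : ℂ) := by norm_num
    rw [e]; exact hC
  have key := branchClean_descent (heckeField (F1 M) p) (Fermat.Agent.H69.ES1.jq_mem_heckeField (jq_mem_F1 M) p) hfin
    (Fermat.Agent.H77.es1dModel M p).j hy 1728 3 2 (p * M) hC'
  have e : (((1728 : ℤ) : ℤ) : AlgebraicClosure ℚ) = (1728 : AlgebraicClosure ℚ) := by norm_num
  rw [e] at key
  exact key

/-- **BR for the Hecke level field**, chart `j`, `ℓ ≥ 5` prime to `p M`. -/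
theorem br1Hecke (M : ℕ) [NeZero M] (hM : 5 ≤ M) (p : ℕ) [NeZero p] (hp : p.Prime)
    (hpM : ¬ p ∣ M) (ℓ : ℕ) (hℓ : ℓ.Prime) (h5 : 5 ≤ ℓ) (hℓM : ¬ ℓ ∣ M) (hℓp : ℓ ≠ p) :
    ModelBranchGen (heckeField (F1 M) p) ℓ jq (6 * (p * M)) := by
  have hM1 : 1 < M := by omega
  have hfin := Fermat.Agent.H69.ES1.finiteDimensional_heckeField_F1
    Fermat.Agent.H17.ES1KL.br1_vFun M hM1 p (AlgebraicClosure ℚ)
  have h2ℓ : Nat.Coprime 2 ℓ := by
    rw [Nat.coprime_comm, Nat.Prime.coprime_iff_not_dvd hℓ]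
    intro h
    have := Nat.le_of_dvd (by norm_num) h
    omega
  have h3ℓ : Nat.Coprime 3 ℓ := by
    rw [Nat.coprime_comm, Nat.Prime.coprime_iff_not_dvd hℓ]
    intro h
    have := Nat.le_of_dvd (by norm_num) h
    omega
  have hMℓ : Nat.Coprime (p * M) ℓ := by
    rw [Nat.coprime_comm, Nat.Prime.coprime_iff_not_dvd hℓ]
    intro h
    rcases (Nat.Prime.dvd_mul hℓ).mp h with h | h
    · exact hℓp ((Nat.prime_dvd_prime_iff_eq hℓ hp).mp h)
    · exact hℓM h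
  have hp0 : p ≠ 0 := hp.ne_zero
  have hM0 : M ≠ 0 := by omega
  exact Fermat.Agent.H2.klbr_modelGen_j (heckeField (F1 M) p)
    (Fermat.Agent.H69.ES1.jq_mem_heckeField (jq_mem_F1 M) p) (p * M) hfin (br1DataHecke M hM p hp hpM) ℓ h2ℓ h3ℓ hMℓ
    (6 * (p * M)) (by simp [hp0, hM0]) ⟨3 * (p * M), by ring⟩ ⟨2 * (p * M), by ring⟩
    ⟨6, by ring⟩

end Fermat.Agent.H6.ES1KL

end
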