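/-
P-ES1 / block ES1-KL, milestone 2 (`ℓ = 2, 3`), helper6: **BR-H-DATA**, unconditional.

`brHData : Fermat.Agent.H29.ES1.BrHDataStatement` — the branch data of `j` on the curve
`X(Γ₁(M) ∩ Γ₀(p))` over `ℚ̄` (from `br1DataHecke`).
-/
import Mathlib
import Fermat.Agent.H6.ES1KL.BranchGen
import Fermat.Agent.H29.ES1.KL2Interfaces

set_option autoImplicit false

noncomputable section

namespace Fermat.Agent.H6.ES1KL

open Fermat.Agent.H29.ES1

/-- **BR-H-DATA** (milestone 2 of ES1-KL), unconditional. -/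
theorem brHData : BrHDataStatement :=
  fun M _ hM p _ hp hpM => br1DataHecke M hM p hp hpM

end Fermat.Agent.H6.ES1KL

end
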