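/-
P-ES1 / block ES1-KL, row 809 (ES1-KL-BR1-DATA), helper6.  Part 1: branch data of `j` over `ℂ`
for an ARBITRARY modular model `X = (Γ, F, R, j)` (generic ES1-A of helper23):

`branchClean_model` : `j` is unramified outside `0, 1728, ∞`, the ramification indices divide
`3` over `0`, `2` over `1728`, and every `N` with `γ⁻¹ T^N γ ∈ Γ` for all `γ` over `∞`.
-/
import Mathlib
import Fermat.Agent.H23.ES1A.Unconditional
import Fermat.Agent.H2.KLBRBranchCalc

set_option autoImplicit false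
set_option synthInstance.maxHeartbeats 400000

noncomputable section

open AlgebraicCurve UpperHalfPlane IntermediateField
open scoped MatrixGroups Manifold

namespace Fermat.Agent.H6.ES1KL

open Fermat.Agent.H23 (jfun)
open Fermat.Agent.H23.EsA (CosetDatum CosetPlace exists_cosetPlace_of_place)
open Fermat.Agent.H23.ES1A
open Fermat.Agent.H19.ES1A (pl_exists_theta plRep_unique_left cosetDatum_of_point)
open Fermat.Agent.H61 (isPrimitiveRoot_denom_S isPrimitiveRoot_denom_ST)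

variable (X : Model)

/-- The ramification exponent of `j` over the point `a` of the `j`-line. -/
def e0At (a : ℂ) : ℕ := if a = 0 then 3 else if a = 1728 then 2 else 1

theorem e0At_pos (a : ℂ) : 0 < e0At a := by
  unfold e0At
  split_ifs <;> norm_num

/-- The coset datum over `a ∈ ℂ` with its explicit exponent. -/
theorem exists_cosetDatum_point (hX : X.IsModular) (a : ℂ) :
    ∃ g : SL(2, ℤ), Nonempty (CosetDatum ℂ ↥X.F X.Γ (X.j - algebraMap ℂ ↥X.F a) g (e0At a)) := by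
  have hfrac := hX.frac
  obtain ⟨Θ, hΘ⟩ := pl_exists_theta (X := X) (fun r hr => by
    obtain ⟨h, hh, -⟩ := hX.rep r hr
    exact ⟨h, hh⟩)
  have hΘJ : Θ ⟨X.j, hX.j_mem⟩ = jfun := plRep_unique_left (hΘ _) hX.j_rep
  have hinvΘ : ∀ (r : ↥X.R) (β : SL(2, ℤ)), β ∈ X.Γ →
      ∀ z : ℍ, Θ r (β • z) = Θ r z := by
    intro r β hβ z
    obtain ⟨h, hh, -, hinv, -⟩ := hX.rep (r : ↥X.F) r.2
    have e : Θ r = h := plRep_unique_left (hΘ r) hh
    rw [e]
    exact hinv β hβ z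
  have hsep : ∀ γ : SL(2, ℤ), (∀ (r : ↥X.R) (z : ℍ), Θ r (γ • z) = Θ r z) → γ ∈ X.Γ := by
    intro γ h
    apply hX.sep
    intro r hfun hr hrep z
    have e : Θ ⟨r, hr⟩ = hfun := plRep_unique_left (hΘ ⟨r, hr⟩) hrep
    rw [← e]
    exact h ⟨r, hr⟩ z
  obtain ⟨hjinv, -, hjsurj, hjgen, ⟨zi, hSi, hji, hoi⟩, ⟨zρ, hSTρ, hjρ, hoρ⟩⟩ :=
    Fermat.Agent.H48.jFacts
  by_cases ha0 : a = 0
  · subst ha0
    obtain ⟨G⟩ := Fermat.Agent.H33.merGerm_statement (zρ : ℂ)
    have hord : meromorphicOrderAt ((fun z => jfun z - (0 : ℂ)) ∘ ofComplex) (zρ : ℂ)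
        = ((3 : ℕ) : ℤ) := by
      have e : ((fun z => jfun z - (0 : ℂ)) ∘ ofComplex) = jfun ∘ ofComplex := by
        funext z; simp
      rw [e, hoρ]; rfl
    obtain ⟨A, -⟩ := cosetDatum_of_point Θ hΘ hX.j_mem hΘJ hinvΘ hfrac hjinv hsep zρ G 0
      (ModularGroup.S * ModularGroup.T) 3 hSTρ (by norm_num) hord
      (isPrimitiveRoot_denom_ST zρ hSTρ)
    have e : e0At (0 : ℂ) = 3 := by simp [e0At]
    rw [e]
    exact ⟨_, ⟨A⟩⟩
  by_cases ha1 : a = 1728
  · subst ha1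
    obtain ⟨G⟩ := Fermat.Agent.H33.merGerm_statement (zi : ℂ)
    have hord : meromorphicOrderAt ((fun z => jfun z - (1728 : ℂ)) ∘ ofComplex) (zi : ℂ)
        = ((2 : ℕ) : ℤ) := by
      rw [hoi]; rfl
    obtain ⟨A, -⟩ := cosetDatum_of_point Θ hΘ hX.j_mem hΘJ hinvΘ hfrac hjinv hsep zi G 1728
      ModularGroup.S 2 hSi (by norm_num) hord (isPrimitiveRoot_denom_S zi hSi)
    have e : e0At (1728 : ℂ) = 2 := by simp [e0At]
    rw [e]
    exact ⟨_, ⟨A⟩⟩
  · obtain ⟨z₀, hz₀⟩ := hjsurj a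
    obtain ⟨G⟩ := Fermat.Agent.H33.merGerm_statement (z₀ : ℂ)
    have h0 : jfun z₀ ≠ 0 := by rw [hz₀]; exact ha0
    have h1 : jfun z₀ ≠ 1728 := by rw [hz₀]; exact ha1
    have hord := hjgen z₀ h0 h1
    rw [hz₀] at hord
    have hprim : IsPrimitiveRoot (denom ((1 : SL(2, ℤ)) : GL (Fin 2) ℝ) z₀ ^ 2) 1 := by
      have : denom ((1 : SL(2, ℤ)) : GL (Fin 2) ℝ) z₀ = 1 := by simp
      rw [this, one_pow]
      exact IsPrimitiveRoot.one
    obtain ⟨A, -⟩ := cosetDatum_of_point Θ hΘ hX.j_mem hΘJ hinvΘ hfrac hjinv hsep z₀ G a 1 1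
      (one_smul _ _) one_pos (by rw [hord]; rfl) hprim
    have e : e0At a = 1 := by simp [e0At, ha0, ha1]
    rw [e]
    exact ⟨_, ⟨A⟩⟩

/-- The coset place of a place at which `y` vanishes. -/
theorem exists_cosetPlace_model (hX : X.IsModular) {y : ↥X.F} {g : SL(2, ℤ)} {e₀ : ℕ}
    (A : CosetDatum ℂ ↥X.F X.Γ y g e₀) (he : 0 < e₀) (hy : Transcendental ℂ y)
    (hyx : ℂ⟮y⟯ = ℂ⟮X.j⟯) (v : Place ℂ ↥X.F) (hv : 0 < v.ord y) :
    ∃ (γ : SL(2, ℤ)) (m w : ℕ), CosetPlace A γ v m w := by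
  classical
  have hfin := hX.finite_quotient
  let _ : Fintype (SL(2, ℤ) ⧸ X.Γ) := Fintype.ofFinite _
  obtain ⟨-, hfd, hrank⟩ := degreeStatement X hX
  have hfd' : FiniteDimensional ℂ⟮y⟯ ↥X.F := by rw [hyx]; exact hfd
  have hrank' : Module.finrank ℂ⟮y⟯ ↥X.F = Fintype.card (SL(2, ℤ) ⧸ X.Γ) := by
    rw [hyx, hrank, Nat.card_eq_fintype_card]
  exact exists_cosetPlace_of_place Fermat.Agent.H49.localCountingRefined A he hy hfd' hrank' v hv

/-- **Branch data of `j` over `ℂ`** for a modular model. -/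
theorem branchClean_model (hX : X.IsModular) (N : ℕ)
    (hN : ∀ γ : SL(2, ℤ), γ⁻¹ * ModularGroup.T ^ N * γ ∈ X.Γ) :
    Fermat.Agent.H2.BranchClean ℂ X.j (1728 : ℂ) 3 2 N := by
  have htr : Transcendental ℂ X.j := (degreeStatement X hX).1
  have key : ∀ (a : ℂ) (v : Place ℂ ↥X.F), 0 < v.ord (X.j - algebraMap ℂ ↥X.F a) →
      v.ord (X.j - algebraMap ℂ ↥X.F a) ∣ (e0At a : ℤ) := by
    intro a v hv
    obtain ⟨g, ⟨A⟩⟩ := exists_cosetDatum_point X hX a
    obtain ⟨γ, m, w, -, -, hvy, hmw, -, -⟩ := exists_cosetPlace_model X hX A (e0At_pos a)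
      (Fermat.Agent.H23.transcendental_sub_const htr a)
      (Fermat.Agent.H23.adjoin_sub_const (K := ℂ) X.j a) v hv
    rw [hvy, ← hmw]
    exact ⟨(m : ℤ), by push_cast; ring⟩
  intro v
  refine ⟨?_, ?_, ?_, ?_⟩
  · intro a ha0 ha1 hv
    have h := key a v hv
    have e : e0At a = 1 := by simp [e0At, ha0, ha1]
    rw [e] at h
    exact Int.eq_one_of_dvd_one hv.le (by simpa using h)
  · intro hv
    have hv' : 0 < v.ord (X.j - algebraMap ℂ ↥X.F 0) := by simpa using hv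
    have h := key 0 v hv'
    have e : e0At (0 : ℂ) = 3 := by simp [e0At]
    rw [e] at h
    simpa using h
  · intro hv
    have h := key 1728 v hv
    have e : e0At (1728 : ℂ) = 2 := by simp [e0At]
    rw [e] at h
    exact h
  · intro hv
    obtain ⟨e₀, A, he, -⟩ := Fermat.Agent.H96.ES1A.cuspDatum X hX
    obtain ⟨γ, m, w, -, -, hvy, -, -, hk⟩ := exists_cosetPlace_model X hX A he
      (Fermat.Agent.H23.transcendental_inv htr)
      (Fermat.Agent.H23.adjoin_inv (K := ℂ) X.j) v hv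
    rw [hvy]
    refine (hk (N : ℤ)).mp ?_
    rw [zpow_natCast]
    exact hN γ

end Fermat.Agent.H6.ES1KL

end
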