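/-
P-ES1 / block ES1-KL (GB towers, rows 808 / 1005), helper6.  Mathlib only.

`exists_disc_in_base` : for fields `E₀ ⊆ E` and `Q ∈ E₀[X]` monic with
`Q = ∏_{i ∈ I} (X - v i)` over `E`, the product `∏_i ∏_{j ≠ i} (v i - v j)` (= `± disc Q`) is the
image of the element `Res(Q, Q')` of `E₀` (hypothesis `hd` of
`Fermat.Agent.H74.ES1KL.multiSplitGoodBasis`).
-/
import Mathlib

set_option autoImplicit false

noncomputable section

namespace Fermat.Agent.H6.ES1KL

open Polynomial

variable {E₀ E : Type*} [Field E₀] [Field E] [Algebra E₀ E]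

/-- The derivative of a split polynomial at one of its roots. -/
theorem eval_derivative_prod_sub {ι : Type*} [DecidableEq ι] (I : Finset ι) (v : ι → E)
    {i₀ : ι} (hi₀ : i₀ ∈ I) :
    eval (v i₀) (derivative (∏ i ∈ I, (X - C (v i)))) = ∏ j ∈ I.erase i₀, (v i₀ - v j) := by
  rw [derivative_prod_finset, eval_finsetSum]
  rw [Finset.sum_eq_single i₀]
  · rw [derivative_sub, derivative_X, derivative_C, sub_zero, mul_one, eval_prod]
    refine Finset.prod_congr rfl fun j _ => ?_
    rw [eval_sub, eval_X, eval_C]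
  · intro a ha hne
    rw [eval_mul, eval_prod]
    have hmem : i₀ ∈ I.erase a := Finset.mem_erase.mpr ⟨fun h => hne h.symm, hi₀⟩
    rw [Finset.prod_eq_zero hmem (by rw [eval_sub, eval_X, eval_C, sub_self]), zero_mul]
  · intro h
    exact absurd hi₀ h

/-- **The discriminant product lies in the base field**: it is the resultant of `Q` and `Q'`. -/
theorem resultant_derivative_of_split {ι : Type*} [DecidableEq ι] (I : Finset ι) (v : ι → E)
    (Q : E₀[X]) (hsplit : Q.map (algebraMap E₀ E) = ∏ i ∈ I, (X - C (v i))) :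
    algebraMap E₀ E (resultant Q (derivative Q) Q.natDegree Q.natDegree)
      = ∏ i ∈ I, ∏ j ∈ I.erase i, (v i - v j) := by
  have hmonic : (Q.map (algebraMap E₀ E)).Monic := by
    rw [hsplit]
    exact monic_prod_of_monic _ _ fun i _ => monic_X_sub_C (v i)
  have hsp : (Q.map (algebraMap E₀ E)).Splits := by
    rw [hsplit]
    exact Splits.prod fun i _ => Splits.X_sub_C (v i)
  have hroots : (Q.map (algebraMap E₀ E)).roots = I.val.map v := by
    rw [hsplit]
    have : (∏ i ∈ I, (X - C (v i))) = ((I.val.map v).map fun a => X - C a).prod := by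
      rw [Multiset.map_map]
      rfl
    rw [this, roots_multiset_prod_X_sub_C]
  have hdeg : (Q.map (algebraMap E₀ E)).natDegree = Q.natDegree :=
    natDegree_map_eq_of_injective (algebraMap E₀ E).injective Q
  have h := resultant_eq_prod_eval (Q.map (algebraMap E₀ E))
    ((derivative Q).map (algebraMap E₀ E)) Q.natDegree
    (natDegree_map_le.trans ((natDegree_derivative_le Q).trans (Nat.sub_le _ _))) hsp
  rw [hdeg, resultant_map_map, hmonic.leadingCoeff, one_pow, one_mul, hroots,
    Multiset.map_map] at h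
  rw [h]
  show (Multiset.map _ I.val).prod = _
  rw [← Finset.prod_eq_multiset_prod]
  refine Finset.prod_congr rfl fun i hi => ?_
  rw [Function.comp_apply, ← derivative_map, hsplit]
  exact eval_derivative_prod_sub I v hi

/-- **DISC-IN-BASE**: existence form. -/
theorem exists_disc_in_base {ι : Type*} [DecidableEq ι] (I : Finset ι) (v : ι → E)
    (Q : E₀[X]) (hsplit : Q.map (algebraMap E₀ E) = ∏ i ∈ I, (X - C (v i))) :
    ∃ d : E₀, algebraMap E₀ E d = ∏ i ∈ I, ∏ j ∈ I.erase i, (v i - v j) :=
  ⟨_, resultant_derivative_of_split I v Q hsplit⟩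

end Fermat.Agent.H6.ES1KL

end
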