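/-
P-ES1 / block ES1-KL, milestone 2 (`ℓ = 2, 3`), helper6.  The Gauss normal form for the Hecke level
fields `heckeField F₀ ℓ = F₀ · V_ℓ(F₀)`:

* `intGenerated_heckeField` : if `F₀` is generated by integral series, so is `heckeField F₀ ℓ`;
* `gaussNormalForm_heckeField` / `gaussNormalForm_heckeField_F1` :
  `GaussNormalFormGenStatement (heckeField (F1 M) ℓ)`.
-/
import Mathlib
import Fermat.Agent.H57.ES1.GaussNormalForm1
import Fermat.Agent.H69.ES1Finite
import Fermat.Agent.H29.ESB.Hecke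

set_option autoImplicit false

noncomputable section

open AlgebraicCurve ModularCurve

namespace Fermat.Agent.H6.ES1KL

open Fermat.Agent.H29.ES1 Fermat.Agent.H57.ES1

/-- If `F₀` is generated over `ℚ` by integral series, so is the Hecke field `F₀ · V_ℓ(F₀)`. -/
theorem intGenerated_heckeField {F₀ : IntermediateField ℚ (LaurentSeries ℚ)}
    (hF : IntGenerated F₀) (ℓ : ℕ) [NeZero ℓ] : IntGenerated (heckeField F₀ ℓ) := by
  obtain ⟨S, hS, hint⟩ := hF
  refine ⟨S ∪ ⇑(qExpand ℚ ℓ) '' S, ?_, ?_⟩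
  · rw [hS, Fermat.Agent.H69.ES1.heckeField_adjoin]
  · rintro x (hx | ⟨z, hz, rfl⟩)
    · exact hint x hx
    · obtain ⟨a, ha⟩ := hint z hz
      exact ⟨qExpand ℤ ℓ a, by rw [Fermat.Agent.H29.coeffMap_qExpand_comm, ha]⟩

/-- **Gauss normal form for the Hecke field** of a level field generated by integral series. -/
theorem gaussNormalForm_heckeField {F₀ : IntermediateField ℚ (LaurentSeries ℚ)}
    (hF : IntGenerated F₀) (ℓ : ℕ) [NeZero ℓ] : GaussNormalFormGenStatement (heckeField F₀ ℓ) :=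
  gaussNormalFormGen (intGenerated_heckeField hF ℓ)

/-- **Gauss normal form for the Hecke field of `X₁(M)`**. -/
theorem gaussNormalForm_heckeField_F1 (M : ℕ) [NeZero M] (ℓ : ℕ) [NeZero ℓ] :
    GaussNormalFormGenStatement (heckeField (F1 M) ℓ) :=
  gaussNormalForm_heckeField (intGenerated_F1 M) ℓ

end Fermat.Agent.H6.ES1KL

end
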